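import Fermat.Agent.RTLift.Patch.ULim

/-!
Automatic continuity of homomorphisms from a Noetherian local ring into finite rings, and the
compatibility of limits of actions with limits of elements, points and homomorphisms.
-/

set_option autoImplicit false

noncomputable section

namespace FermatAgent.RTLift.Patch

open IsLocalRing Filter

theorem pow_maximalIdeal_card_eq_bot {Q : Type*} [CommRing Q] [IsLocalRing Q] [Finite Q] :
    maximalIdeal Q ^ Nat.card Q = ⊥ := by
  have key : ∀ k : ℕ, maximalIdeal Q ^ k = ⊥ ∨
      Nat.card ((maximalIdeal Q ^ k : Ideal Q) : Set Q) + k ≤ Nat.card Q := by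
    intro k
    induction k with
    | zero =>
      right
      simp only [add_zero]
      exact Nat.card_le_card_of_injective
        (fun x : ((maximalIdeal Q ^ 0 : Ideal Q) : Set Q) => (x : Q)) Subtype.val_injective
    | succ k ih =>
      rcases ih with h | h
      · left; rw [pow_succ, h, Ideal.bot_mul]
      rcases eq_or_ne (maximalIdeal Q ^ (k + 1)) (maximalIdeal Q ^ k) with e | e
      · left
        rw [e]
        refine Submodule.eq_bot_of_le_smul_of_le_jacobson_bot (maximalIdeal Q) _
          (IsNoetherian.noetherian _) ?_ (maximalIdeal_le_jacobson _)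
        rw [smul_eq_mul, ← pow_succ']
        exact e.ge
      · right
        have hlt : ((maximalIdeal Q ^ (k + 1) : Ideal Q) : Set Q) ⊂
            ((maximalIdeal Q ^ k : Ideal Q) : Set Q) :=
          lt_of_le_of_ne (Ideal.pow_le_pow_right k.le_succ) (fun hh => e (SetLike.coe_injective hh))
        have := Set.ncard_lt_ncard hlt (Set.toFinite _)
        rw [← Nat.card_coe_set_eq, ← Nat.card_coe_set_eq] at this
        omega
  rcases key (Nat.card Q) with h | h
  · exact h
  · exfalso
    have : 0 < Nat.card ((maximalIdeal Q ^ Nat.card Q : Ideal Q) : Set Q) :=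
      Nat.card_pos_iff.mpr ⟨⟨⟨0, zero_mem _⟩⟩, inferInstance⟩
    omega

/-- A homomorphism from a local ring to a finite ring kills a fixed power of the maximal ideal,
bounded by the cardinality of the target. -/
theorem map_eq_zero_of_mem_pow {R : Type*} [CommRing R] [IsLocalRing R] {B : Type*} [Ring B]
    [Finite B] (φ : R →+* B) {K : ℕ} (hK : Nat.card B ≤ K) {x : R}
    (hx : x ∈ maximalIdeal R ^ K) : φ x = 0 := by
  have hfin : Finite (R ⧸ RingHom.ker φ) :=
    Finite.of_injective _ (RingHom.kerLift_injective φ)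
  by_cases htop : RingHom.ker φ = ⊤
  · exact RingHom.mem_ker.mp (htop ▸ Submodule.mem_top)
  have : Nontrivial (R ⧸ RingHom.ker φ) := Ideal.Quotient.nontrivial_iff.mpr htop
  have : IsLocalRing (R ⧸ RingHom.ker φ) :=
    .of_surjective' (Ideal.Quotient.mk _) Ideal.Quotient.mk_surjective
  have hcard : Nat.card (R ⧸ RingHom.ker φ) ≤ Nat.card B :=
    Nat.card_le_card_of_injective _ (RingHom.kerLift_injective φ)
  have h1 : Ideal.Quotient.mk (RingHom.ker φ) x ∈ maximalIdeal (R ⧸ RingHom.ker φ) ^ K := by
    rw [← IsLocalRing.map_maximalIdeal_of_surjective _ Ideal.Quotient.mk_surjective,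
      ← Ideal.map_pow]
    exact Ideal.mem_map_of_mem _ hx
  have h2 : (maximalIdeal (R ⧸ RingHom.ker φ)) ^ K = ⊥ :=
    le_bot_iff.mp ((Ideal.pow_le_pow_right (hcard.trans hK)).trans pow_maximalIdeal_card_eq_bot.le)
  rw [h2, Ideal.mem_bot, Ideal.Quotient.eq_zero_iff_mem] at h1
  exact RingHom.mem_ker.mp h1

variable {A : Type*} [CommRing A] [IsLocalRing A] [IsNoetherianRing A] [Finite (ResidueField A)]
  [IsAdicComplete (maximalIdeal A) A] {b : ℕ → Ideal A}
variable {R : Type*} [CommRing R] [IsLocalRing R] [IsNoetherianRing R] [Finite (ResidueField R)]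
  [IsAdicComplete (maximalIdeal R) R]
variable {α β : Type*} [Fintype α] [DecidableEq α]

/-- Continuity: the limit action at a limit element is the limit of the values. -/
theorem ulimAction_ulim (hb : Shrinks b) (act : ∀ n, R →+* Matrix α α (A ⧸ b n)) (x : ℕ → R) :
    ulimAction hb act (ulim x) = ulimMat fun n => act n (x n) := by
  rw [ulimAction_apply]
  refine ulimMat_congr_mod hb fun k => ?_
  have := finite_quotient_maximalIdeal_pow (A := A) k
  filter_upwards [eventually_limFilter_of_atTop (hb k),
    ulim_spec x (Nat.card (Matrix α α (A ⧸ maximalIdeal A ^ k)))] with n hle hn i j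
  have h0 := map_eq_zero_of_mem_pow
    ((Ideal.Quotient.factor hle).mapMatrix.comp (act n)) le_rfl hn
  rw [RingHom.comp_apply, map_sub, map_sub, sub_eq_zero] at h0
  have hij := congrFun (congrFun h0 i) j
  simp only [RingHom.mapMatrix_apply, Matrix.map_apply] at hij
  rw [← Ideal.Quotient.factor_ker hle, RingHom.mem_ker, map_sub, hij, sub_self]

/-- Continuity for limits of homomorphisms. -/
theorem ulimRingHom_ulim (φ : ℕ → R →+* A) (x : ℕ → R) :
    ulimRingHom φ (ulim x) = ulim fun n => φ n (x n) := by
  rw [ulimRingHom_apply]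
  refine ulim_congr_mod fun k => ?_
  have := finite_quotient_maximalIdeal_pow (A := A) k
  filter_upwards [ulim_spec x (Nat.card (A ⧸ maximalIdeal A ^ k))] with n hn
  have h0 := map_eq_zero_of_mem_pow ((Ideal.Quotient.mk _).comp (φ n)) le_rfl hn
  rw [RingHom.comp_apply, map_sub, map_sub, sub_eq_zero, Ideal.Quotient.eq] at h0
  rw [← neg_sub, Ideal.neg_mem_iff]
  exact h0

variable [Fintype β] [DecidableEq β] {R' : Type*} [CommRing R'] [IsLocalRing R']
  [IsNoetherianRing R'] [Finite (ResidueField R')] [IsAdicComplete (maximalIdeal R') R']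

omit [IsLocalRing R] [IsNoetherianRing R] [Finite (ResidueField R)]
  [IsAdicComplete (maximalIdeal R) R] in
/-- A linear relation `F_n ∘ act_n r = act'_n r ∘ F_n` passes to the limit. -/
theorem ulimMat_linear (hb : Shrinks b) (act : ∀ n, R →+* Matrix α α (A ⧸ b n))
    (act' : ∀ n, R →+* Matrix β β (A ⧸ b n)) (F : ∀ n, Matrix β α (A ⧸ b n)) (r : R)
    (h : ∀ᶠ n in limFilter, F n * act n r = act' n r * F n) :
    ulimMat F * ulimAction hb act r = ulimAction hb act' r * ulimMat F := by
  rw [ulimAction_apply, ulimAction_apply, ← ulimMat_mul hb, ← ulimMat_mul hb]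
  exact ulimMat_congr hb h

omit [IsLocalRing R] [IsNoetherianRing R] [Finite (ResidueField R)]
  [IsAdicComplete (maximalIdeal R) R] in
/-- An element acting at every level as a given scalar acts as that scalar in the limit. -/
theorem ulimAction_eq_scalar (hb : Shrinks b) (act : ∀ n, R →+* Matrix α α (A ⧸ b n)) {r : R}
    (a : A) (h : ∀ᶠ n in limFilter, act n r = Matrix.scalar α (Ideal.Quotient.mk (b n) a)) :
    ulimAction hb act r = Matrix.scalar α a := by
  rw [ulimAction_apply, ulimMat_congr hb (g := fun n =>
    (Matrix.scalar α a).map (Ideal.Quotient.mk (b n))) (h.mono fun n hn => by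
      rw [hn, Matrix.scalar_apply, Matrix.scalar_apply,
        Matrix.diagonal_map (map_zero (Ideal.Quotient.mk (b n)))]), ulimMat_map hb]

/-- An element of the limit acts as a scalar if the finite-level elements do. -/
theorem ulimAction_ulim_eq_scalar (hb : Shrinks b) (act : ∀ n, R →+* Matrix α α (A ⧸ b n))
    (x : ℕ → R) (a : ℕ → A)
    (h : ∀ᶠ n in limFilter, act n (x n) = Matrix.scalar α (Ideal.Quotient.mk (b n) (a n))) :
    ulimAction hb act (ulim x) = Matrix.scalar α (ulim a) := by
  rw [ulimAction_ulim hb act x, ulimMat_congr hb (g := fun n =>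
    Ideal.Quotient.mk (b n) (a n) • (1 : Matrix α α (A ⧸ b n)))
    (h.mono fun n hn => by rw [hn, Matrix.smul_one_eq_diagonal]; rfl),
    ulimMat_smul hb, ulimMat_one hb, Matrix.smul_one_eq_diagonal]
  rfl

end FermatAgent.RTLift.Patch
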