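import Fermat.Agent.DefRing.PowerSeriesBase
import Fermat.Agent.RTLift.Patch.Continuity

/-!
Power series rings over a complete Noetherian local ring with finite residue field satisfy the
hypotheses of the limit construction; also the standard shrinking ideals.
-/

set_option autoImplicit false

noncomputable section

namespace FermatAgent.RTLift.Patch

open IsLocalRing Filter

variable {σ : Type} [Finite σ] {O : Type} [CommRing O] [IsLocalRing O] [IsNoetherianRing O]
  [IsAdicComplete (maximalIdeal O) O] [Finite (ResidueField O)]

instance instIsAdicCompleteMvPowerSeries :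
    IsAdicComplete (maximalIdeal (MvPowerSeries σ O)) (MvPowerSeries σ O) :=
  DefRing.isAdicComplete_mvPowerSeries

omit [IsNoetherianRing O] [IsAdicComplete (maximalIdeal O) O] in
instance instFiniteResidueFieldMvPowerSeries : Finite (ResidueField (MvPowerSeries σ O)) := by
  have : IsLocalHom (algebraMap O (MvPowerSeries σ O)) := DefRing.isLocalHom_algebraMap
  have hsurj : Function.Surjective (ResidueField.map (algebraMap O (MvPowerSeries σ O))) := by
    intro y
    obtain ⟨o, ho⟩ := DefRing.residue_comp_algebraMap_surjective y
    exact ⟨residue O o, (ResidueField.map_residue _ o).trans ho⟩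
  exact Finite.of_surjective _ hsurj

omit [Finite σ] [IsNoetherianRing O] [IsAdicComplete (maximalIdeal O) O] [Finite (ResidueField O)] in
/-- Ideals generated by powers of generators of the maximal ideal shrink. -/
theorem shrinks_of_le_pow {A : Type*} [CommRing A] [IsLocalRing A] [IsNoetherianRing A]
    {b : ℕ → Ideal A} (e : ℕ → ℕ) (he : Tendsto e atTop atTop)
    (h : ∀ n, b n ≤ maximalIdeal A ^ e n) : Shrinks b := fun k =>
  (he.eventually_ge_atTop k).mono fun n hn => (h n).trans (Ideal.pow_le_pow_right hn)

end FermatAgent.RTLift.Patch
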