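import Mathlib

/-!
Supports of patched modules: dimension of the minimal primes of the support and the wall lemma.
-/

set_option autoImplicit false

noncomputable section

namespace FermatAgent.RTLift.Patch

open Module

/-- An injective integral extension preserves the Krull dimension. -/
theorem ringKrullDim_eq_of_isIntegral {A B : Type*} [CommRing A] [CommRing B] [Algebra A B]
    [Algebra.IsIntegral A B] (hinj : Function.Injective (algebraMap A B)) :
    ringKrullDim B = ringKrullDim A := by
  refine le_antisymm ?_ ?_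
  · refine Order.krullDim_le_of_strictMono
      (PrimeSpectrum.comap (algebraMap A B)) fun P Q hPQ => ?_
    obtain ⟨x, hxQ, hxP⟩ := Set.exists_of_ssubset (show (P.asIdeal : Set B) ⊂ Q.asIdeal from hPQ)
    exact Ideal.comap_lt_comap_of_integral_mem_sdiff hPQ.le ⟨hxQ, hxP⟩
      (Algebra.IsIntegral.isIntegral x)
  · refine iSup_le fun l => ?_
    obtain ⟨Q, -, hQ, hQl⟩ := Ideal.exists_ideal_over_prime_of_isIntegral (S := B)
      l.head.asIdeal ⊥ (by
        rw [← RingHom.ker_eq_comap_bot, (RingHom.injective_iff_ker_eq_bot _).mp hinj]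
        exact bot_le)
    have : Q.LiesOver l.head.asIdeal := ⟨hQl.symm⟩
    obtain ⟨L, hlen, -, -⟩ := Ideal.exists_ltSeries_of_hasGoingUp l Q
    exact le_iSup_of_le L (by rw [hlen])

section Dimension

variable {R : Type*} [CommRing R] {M : Type*} [AddCommGroup M] [Module R M]
  {A : Type*} [CommRing A] [Module A M] [Module.Finite A M]

/-- If every scalar acts as some element of `R`, then `M` is finite over `R`. -/
theorem finite_of_scalar_mem (hA : ∀ a : A, ∃ r : R, ∀ x : M, a • x = r • x) :
    Module.Finite R M := by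
  obtain ⟨s, hs⟩ := Module.Finite.fg_top (R := A) (M := M)
  refine ⟨⟨s, eq_top_iff.mpr ?_⟩⟩
  rintro x -
  have hx : x ∈ Submodule.span A (s : Set M) := hs ▸ Submodule.mem_top
  induction hx using Submodule.span_induction with
  | mem y hy => exact Submodule.subset_span hy
  | zero => exact zero_mem _
  | add y z _ _ hy hz => exact add_mem hy hz
  | smul a y _ hy =>
    obtain ⟨r, hr⟩ := hA a
    rw [hr]
    exact Submodule.smul_mem _ r hy

variable [IsNoetherianRing R]

/-- A minimal prime of the support is associated. -/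
theorem exists_annihilator_of_mem_minimalPrimes (hA : ∀ a : A, ∃ r : R, ∀ x : M, a • x = r • x)
    {P : Ideal R} (hP : P ∈ (Module.annihilator R M).minimalPrimes) :
    IsAssociatedPrime P M := by
  have := finite_of_scalar_mem hA
  exact Module.associatedPrimes.minimalPrimes_annihilator_subset_associatedPrimes R M hP

variable [IsNoetherianRing A]

/-- The minimal primes of the support of a module, finite and torsion-free over `A`, have
coheight `dim A`. -/
theorem ringKrullDim_quotient_eq_of_mem_minimalPrimes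
    (hA : ∀ a : A, ∃ r : R, ∀ x : M, a • x = r • x)
    (htf : ∀ (a : A) (x : M), a • x = 0 → a = 0 ∨ x = 0)
    {P : Ideal R} (hP : P ∈ (Module.annihilator R M).minimalPrimes) :
    ringKrullDim (R ⧸ P) = ringKrullDim A := by
  have hann : Module.annihilator R M ≤ P := hP.1.2
  obtain ⟨hprime, φ, hφ⟩ := (isAssociatedPrime_iff_exists_injective_linearMap P M).mp
    (exists_annihilator_of_mem_minimalPrimes hA hP)
  choose g hg using hA
  have key : ∀ {a : A} {r : R}, (∀ x : M, a • x = r • x) →
      Ideal.Quotient.mk P (g a) = Ideal.Quotient.mk P r := fun {a r} hr => by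
    rw [Ideal.Quotient.eq]
    refine hann (Module.mem_annihilator.mpr fun x => ?_)
    rw [sub_smul, ← hg, ← hr, sub_self]
  let f : A →+* R ⧸ P :=
    { toFun := fun a => Ideal.Quotient.mk P (g a)
      map_one' := (key fun x => by rw [one_smul, one_smul]).trans (map_one _)
      map_mul' := fun a a' => (key fun x => by rw [mul_smul, mul_smul, ← hg, ← hg]).trans
        (map_mul _ _ _)
      map_zero' := (key fun x => by rw [zero_smul, zero_smul]).trans (map_zero _)
      map_add' := fun a a' => (key fun x => by rw [add_smul, add_smul, ← hg, ← hg]).trans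
        (map_add _ _ _) }
  have hx0 : φ (Ideal.Quotient.mk P 1) ≠ 0 := by
    rw [map_ne_zero_iff φ hφ, map_one]
    have := Ideal.Quotient.nontrivial_iff.mpr hprime.ne_top
    exact one_ne_zero
  have hφA : ∀ (a : A) (q : R ⧸ P), φ (f a * q) = a • φ q := fun a q => by
    rw [hg a, ← map_smul]
    exact congrArg φ (by simp [f, Algebra.smul_def])
  have hfinj : Function.Injective f := by
    rw [injective_iff_map_eq_zero]
    intro a ha
    refine (htf a (φ (Ideal.Quotient.mk P 1)) ?_).resolve_right hx0
    rw [← hφA, ha, zero_mul, map_zero]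
  let : Algebra A (R ⧸ P) := f.toAlgebra
  have : IsNoetherian A M := isNoetherian_of_isNoetherianRing_of_finite A M
  let ψ : (R ⧸ P) →ₗ[A] M :=
    { toFun := φ
      map_add' := map_add φ
      map_smul' := fun a q => hφA a q }
  have : Module.Finite A (R ⧸ P) := Module.Finite.of_injective ψ hφ
  have : Algebra.IsIntegral A (R ⧸ P) := Algebra.IsIntegral.of_finite A (R ⧸ P)
  exact ringKrullDim_eq_of_isIntegral (A := A) (B := R ⧸ P) hfinj

variable [FiniteRingKrullDim A] {ι : Type*} [Fintype ι] {I : ι → Ideal R}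

/-- If a product of primes of coheight `dim A` kills `M`, the minimal primes of the support are
among them. -/
theorem exists_eq_of_mem_minimalPrimes (hA : ∀ a : A, ∃ r : R, ∀ x : M, a • x = r • x)
    (htf : ∀ (a : A) (x : M), a • x = 0 → a = 0 ∨ x = 0) (hprime : ∀ i, (I i).IsPrime)
    (hdim : ∀ i, ringKrullDim (R ⧸ I i) = ringKrullDim A)
    (hkill : ∏ i, I i ≤ Module.annihilator R M)
    {P : Ideal R} (hP : P ∈ (Module.annihilator R M).minimalPrimes) : ∃ i, P = I i := by
  have : P.IsPrime := hP.1.1
  obtain ⟨i, -, hi⟩ := (Ideal.IsPrime.prod_le inferInstance).mp (hkill.trans hP.1.2)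
  refine ⟨i, (eq_of_le_of_not_lt hi fun hlt => ?_).symm⟩
  obtain ⟨x, hxP, hxI⟩ := SetLike.exists_of_lt hlt
  have := hprime i
  have hnz : Ideal.Quotient.mk (I i) x ∈ nonZeroDivisors (R ⧸ I i) :=
    mem_nonZeroDivisors_of_ne_zero (by rwa [ne_eq, Ideal.Quotient.eq_zero_iff_mem])
  have hle : ringKrullDim (R ⧸ P) + 1 ≤ ringKrullDim (R ⧸ I i) := by
    refine ringKrullDim_succ_le_of_surjective (Ideal.Quotient.factor hi)
      (Ideal.Quotient.factor_surjective hi) hnz ?_
    rwa [Ideal.Quotient.factor_mk, Ideal.Quotient.eq_zero_iff_mem]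
  rw [hdim i, ringKrullDim_quotient_eq_of_mem_minimalPrimes hA htf hP] at hle
  obtain ⟨d, hd⟩ := WithBot.ne_bot_iff_exists.mp (ringKrullDim_ne_bot (R := A))
  have htop : d ≠ ⊤ := fun h => ringKrullDim_ne_top (R := A) (by rw [← hd, h]; rfl)
  rw [← hd, ← WithBot.coe_one, ← WithBot.coe_add, WithBot.coe_le_coe,
    ENat.add_one_le_iff htop] at hle
  exact lt_irrefl d hle

/-- Every prime of the support contains one of the components lying in the support. -/
theorem exists_component_le_of_mem_support (hA : ∀ a : A, ∃ r : R, ∀ x : M, a • x = r • x)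
    (htf : ∀ (a : A) (x : M), a • x = 0 → a = 0 ∨ x = 0) (hprime : ∀ i, (I i).IsPrime)
    (hdim : ∀ i, ringKrullDim (R ⧸ I i) = ringKrullDim A)
    (hkill : ∏ i, I i ≤ Module.annihilator R M)
    {Q : PrimeSpectrum R} (hQ : Q ∈ Module.support R M) :
    ∃ i, I i ≤ Q.asIdeal ∧ (⟨I i, hprime i⟩ : PrimeSpectrum R) ∈ Module.support R M := by
  have := finite_of_scalar_mem hA
  rw [Module.support_eq_zeroLocus, PrimeSpectrum.mem_zeroLocus, SetLike.coe_subset_coe] at hQ
  obtain ⟨P, hP, hPQ⟩ := Ideal.exists_minimalPrimes_le hQ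
  obtain ⟨i, rfl⟩ := exists_eq_of_mem_minimalPrimes hA htf hprime hdim hkill hP
  refine ⟨i, hPQ, ?_⟩
  rw [Module.support_eq_zeroLocus, PrimeSpectrum.mem_zeroLocus, SetLike.coe_subset_coe]
  exact hP.1.2

end Dimension

section Wall

variable {R : Type*} [CommRing R] {N : Type*} [AddCommGroup N] [Module R N] [Module.Finite R N]

/-- A matrix with determinant in a prime of the support of `N` is not surjective on `N^t` there. -/
theorem mem_support_quotient_range_matrix {t : Type*} [Fintype t] [DecidableEq t]
    (E : Matrix t t R) (f : (t → N) →ₗ[R] (t → N)) (hf : ∀ v i, f v i = ∑ j, E i j • v j)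
    (P : PrimeSpectrum R) (hdet : E.det ∈ P.asIdeal) (hP : P ∈ Module.support R N) :
    P ∈ Module.support R ((t → N) ⧸ LinearMap.range f) := by
  by_contra hcon
  rw [Module.notMem_support_iff'] at hcon
  obtain ⟨cbar, hc0, hc⟩ := Matrix.exists_vecMul_eq_zero_iff.mpr
    (show (E.map (Ideal.Quotient.mk P.asIdeal)).det = 0 by
      rw [← RingHom.mapMatrix_apply, ← RingHom.map_det, Ideal.Quotient.eq_zero_iff_mem]
      exact hdet)
  choose c hcc using fun i => Ideal.Quotient.mk_surjective (cbar i)
  obtain ⟨k, hk⟩ := Function.ne_iff.mp hc0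
  have hck : c k ∉ P.asIdeal := fun h =>
    hk (by rw [← hcc k]; exact Ideal.Quotient.eq_zero_iff_mem.mpr h)
  have hcE : ∀ j, ∑ i, c i * E i j ∈ P.asIdeal := fun j => by
    rw [← Ideal.Quotient.eq_zero_iff_mem, map_sum]
    simp only [map_mul, hcc]
    exact congrFun hc j
  have hmem : P ∈ Module.support R (N ⧸ P.asIdeal • (⊤ : Submodule R N)) := by
    rw [Module.support_quotient]
    exact ⟨hP, (PrimeSpectrum.mem_zeroLocus _ _).mpr (Set.Subset.refl _)⟩
  rw [Module.mem_support_iff'] at hmem
  obtain ⟨m, hm⟩ := hmem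
  obtain ⟨x, rfl⟩ := Submodule.Quotient.mk_surjective _ m
  obtain ⟨s, hs, hsx⟩ := hcon (Submodule.Quotient.mk (Pi.single k x))
  rw [← Submodule.Quotient.mk_smul, Submodule.Quotient.mk_eq_zero] at hsx
  obtain ⟨w, hw⟩ := hsx
  refine hm (c k * s) (fun h => (P.isPrime.mem_or_mem h).elim hck hs) ?_
  rw [← Submodule.Quotient.mk_smul, Submodule.Quotient.mk_eq_zero]
  have h1 : ∑ i, c i • (f w i) = (c k * s) • x := by
    rw [hw, Finset.sum_eq_single k]
    · simp [mul_smul]
    · intro i _ hi
      simp [Pi.single_eq_of_ne hi]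
    · simp
  rw [← h1]
  simp only [hf, Finset.smul_sum, smul_smul]
  rw [Finset.sum_comm]
  refine sum_mem fun j _ => ?_
  rw [← Finset.sum_smul]
  exact Submodule.smul_mem_smul (hcE j) Submodule.mem_top

variable {N₁ : Type*} [AddCommGroup N₁] [Module R N₁]

/-- The wall lemma: a surjective transfer whose composite with the restriction is a matrix with
determinant in `P` forces `P` into the support of the cokernel of the restriction. -/
theorem mem_support_coker_of_wall {t : Type*} [Fintype t] [DecidableEq t]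
    (res : (t → N) →ₗ[R] N₁) (tr : N₁ →ₗ[R] (t → N)) (htr : Function.Surjective tr)
    (E : Matrix t t R) (hE : ∀ v i, tr (res v) i = ∑ j, E i j • v j)
    (P : PrimeSpectrum R) (hdet : E.det ∈ P.asIdeal) (hP : P ∈ Module.support R N) :
    P ∈ Module.support R (N₁ ⧸ LinearMap.range res) := by
  have h := mem_support_quotient_range_matrix E (tr ∘ₗ res) (fun v i => hE v i) P hdet hP
  refine Module.support_subset_of_surjective
    ((LinearMap.range res).mapQ _ tr ?_) ?_ h
  · rintro _ ⟨v, rfl⟩
    exact ⟨v, rfl⟩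
  · intro y
    obtain ⟨v, rfl⟩ := Submodule.Quotient.mk_surjective _ y
    obtain ⟨u, rfl⟩ := htr v
    exact ⟨Submodule.Quotient.mk u, rfl⟩

end Wall

end FermatAgent.RTLift.Patch
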