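import Mathlib

/-!
The module carried by an action of a commutative ring through matrices.
-/

set_option autoImplicit false

noncomputable section

namespace FermatAgent.RTLift.Patch

open Matrix

variable {R : Type*} [CommRing R] {A : Type*} [CommRing A]
variable {α β : Type*} [Fintype α] [DecidableEq α] [Fintype β] [DecidableEq β]

/-- The free module `α → A` with the action of `R` given by `ρ`. -/
def Slot (_ρ : R →+* Matrix α α A) : Type _ := α → A

variable (ρ : R →+* Matrix α α A) (ρ' : R →+* Matrix β β A)

instance instAddCommGroupSlot : AddCommGroup (Slot ρ) := inferInstanceAs (AddCommGroup (α → A))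
instance instModuleSlotScalar : Module A (Slot ρ) := inferInstanceAs (Module A (α → A))
instance instFiniteSlot : Module.Finite A (Slot ρ) := inferInstanceAs (Module.Finite A (α → A))
instance instFreeSlot : Module.Free A (Slot ρ) := inferInstanceAs (Module.Free A (α → A))

/-- The identification of a slot with `α → A`. -/
def Slot.toFun : Slot ρ ≃ₗ[A] (α → A) := LinearEquiv.refl A (α → A)

/-- The action of `R` by endomorphisms. -/
def Slot.endHom : R →+* Module.End A (Slot ρ) :=
  (Matrix.toLinAlgEquiv' : Matrix α α A ≃ₐ[A] _).toRingEquiv.toRingHom.comp ρ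

instance instModuleSlotAction : Module R (Slot ρ) :=
  Module.compHom (Slot ρ) (Slot.endHom ρ)

theorem Slot.smul_apply (r : R) (x : Slot ρ) :
    Slot.toFun ρ (r • x) = ρ r *ᵥ Slot.toFun ρ x := rfl

instance instSMulCommSlot : SMulCommClass R A (Slot ρ) :=
  ⟨fun r a x => LinearMap.map_smul (Slot.endHom ρ r) a x⟩

theorem Slot.smul_eq_of_scalar {r : R} {a : A} (h : ρ r = Matrix.scalar α a) (x : Slot ρ) :
    r • x = a • x := by
  refine (Slot.toFun ρ).injective ?_
  rw [Slot.smul_apply, h, map_smul, Matrix.scalar_apply]
  ext i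
  simp [Matrix.mulVec_diagonal]

/-- The map of slots given by a matrix intertwining the two actions. -/
def slotMap (F : Matrix β α A) (h : ∀ r, F * ρ r = ρ' r * F) : Slot ρ →ₗ[R] Slot ρ' where
  toFun x := (Slot.toFun ρ').symm (F *ᵥ Slot.toFun ρ x)
  map_add' x y := by simp [Matrix.mulVec_add]
  map_smul' r x := by
    refine (Slot.toFun ρ').injective ?_
    simp only [RingHom.id_apply, Slot.smul_apply, LinearEquiv.apply_symm_apply]
    rw [mulVec_mulVec, mulVec_mulVec, h]

theorem slotMap_apply (F : Matrix β α A) (h : ∀ r, F * ρ r = ρ' r * F) (x : Slot ρ) :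
    Slot.toFun ρ' (slotMap ρ ρ' F h x) = F *ᵥ Slot.toFun ρ x := rfl

end FermatAgent.RTLift.Patch
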