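import Mathlib

/-!
Limits along a non-principal ultrafilter on `ℕ` in a complete Noetherian local ring with finite
residue field, and of finite-level data (elements, homomorphisms, matrices) modulo shrinking
ideals.
-/

set_option autoImplicit false

noncomputable section

namespace FermatAgent.RTLift.Patch

open IsLocalRing Filter

/-- The fixed non-principal ultrafilter on `ℕ`. -/
abbrev limFilter : Filter ℕ := (Filter.hyperfilter ℕ : Filter ℕ)

theorem limFilter_le_atTop : limFilter ≤ Filter.atTop := Nat.hyperfilter_le_atTop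

theorem eventually_limFilter_of_atTop {p : ℕ → Prop} (h : ∀ᶠ n in atTop, p n) :
    ∀ᶠ n in limFilter, p n := h.filter_mono limFilter_le_atTop

variable {A : Type*} [CommRing A] [IsLocalRing A] [IsNoetherianRing A]

/-- A sequence of ideals shrinks if it is eventually inside every power of the maximal ideal. -/
def Shrinks (b : ℕ → Ideal A) : Prop :=
  ∀ k : ℕ, ∀ᶠ n in atTop, b n ≤ maximalIdeal A ^ k

theorem mem_of_forall_mem_sup_pow (I : Ideal A) {x : A}
    (h : ∀ k : ℕ, x ∈ I ⊔ maximalIdeal A ^ k) : x ∈ I := by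
  have hH : IsHausdorff (maximalIdeal A) (A ⧸ I) := inferInstance
  rw [← Ideal.Quotient.eq_zero_iff_mem]
  refine hH.haus _ fun k => ?_
  rw [SModEq.zero, Ideal.smul_top_eq_map]
  obtain ⟨u, hu, v, hv, rfl⟩ := Submodule.mem_sup.mp (h k)
  rw [map_add, Ideal.Quotient.eq_zero_iff_mem.mpr hu, zero_add, Submodule.restrictScalars_mem]
  exact Ideal.mem_map_of_mem _ hv

theorem eq_of_forall_sub_mem_pow {x y : A} (h : ∀ k : ℕ, x - y ∈ maximalIdeal A ^ k) : x = y := by
  rw [← sub_eq_zero, ← Ideal.mem_bot (R := A)]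
  exact mem_of_forall_mem_sup_pow ⊥ fun k => Submodule.mem_sup_right (h k)

variable [Finite (ResidueField A)]

omit [IsNoetherianRing A] in
theorem finite_residue_quotient : Finite (A ⧸ maximalIdeal A) :=
  inferInstanceAs (Finite (ResidueField A))

theorem finite_quotient_maximalIdeal_pow (k : ℕ) : Finite (A ⧸ maximalIdeal A ^ k) := by
  have := finite_residue_quotient (A := A)
  exact Ideal.finite_quotient_pow (IsNoetherian.noetherian _) k

variable [IsAdicComplete (maximalIdeal A) A]

theorem exists_ulim (x : ℕ → A) :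
    ∃ a : A, ∀ k : ℕ, ∀ᶠ n in limFilter, x n - a ∈ maximalIdeal A ^ k := by
  have hc : ∀ k : ℕ, ∃ c : A, ∀ᶠ n in limFilter, x n - c ∈ maximalIdeal A ^ k := by
    intro k
    have := finite_quotient_maximalIdeal_pow (A := A) k
    obtain ⟨q, hq⟩ := Ultrafilter.eq_pure_of_finite
      ((Filter.hyperfilter ℕ).map fun n => Ideal.Quotient.mk (maximalIdeal A ^ k) (x n))
    obtain ⟨c, rfl⟩ := Ideal.Quotient.mk_surjective q
    refine ⟨c, ?_⟩
    have h : ({Ideal.Quotient.mk _ c} : Set (A ⧸ maximalIdeal A ^ k)) ∈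
        (Filter.hyperfilter ℕ).map fun n => Ideal.Quotient.mk (maximalIdeal A ^ k) (x n) := by
      rw [hq]
      exact Ultrafilter.mem_pure.mpr rfl
    rw [Ultrafilter.mem_map] at h
    filter_upwards [h] with n hn
    exact Ideal.Quotient.eq.mp hn
  choose c hc using hc
  obtain ⟨L, hL⟩ := IsPrecomplete.prec (I := maximalIdeal A) (M := A) inferInstance
    (f := c) (fun {i j} hij => by
      obtain ⟨n, h1, h2⟩ := ((hc i).and (hc j)).exists
      rw [SModEq.sub_mem, smul_eq_mul, Ideal.mul_top]
      have h2' := Ideal.pow_le_pow_right hij h2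
      have : c i - c j = (x n - c j) - (x n - c i) := by ring
      rw [this]
      exact sub_mem h2' h1)
  refine ⟨L, fun k => ?_⟩
  have hLk : c k - L ∈ maximalIdeal A ^ k := by
    have := hL k
    rwa [SModEq.sub_mem, smul_eq_mul, Ideal.mul_top] at this
  filter_upwards [hc k] with n hn
  have : x n - L = (x n - c k) + (c k - L) := by ring
  rw [this]
  exact add_mem hn hLk

/-- The limit of a sequence along the ultrafilter. -/
def ulim (x : ℕ → A) : A := (exists_ulim x).choose

theorem ulim_spec (x : ℕ → A) (k : ℕ) :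
    ∀ᶠ n in limFilter, x n - ulim x ∈ maximalIdeal A ^ k :=
  (exists_ulim x).choose_spec k

theorem ulim_eq {x : ℕ → A} {a : A}
    (h : ∀ k : ℕ, ∀ᶠ n in limFilter, x n - a ∈ maximalIdeal A ^ k) : ulim x = a := by
  refine eq_of_forall_sub_mem_pow fun k => ?_
  obtain ⟨n, h1, h2⟩ := ((h k).and (ulim_spec x k)).exists
  have : ulim x - a = (x n - a) - (x n - ulim x) := by ring
  rw [this]
  exact sub_mem h1 h2

theorem ulim_congr_mod {x y : ℕ → A}
    (h : ∀ k : ℕ, ∀ᶠ n in limFilter, x n - y n ∈ maximalIdeal A ^ k) : ulim x = ulim y := by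
  refine ulim_eq fun k => ?_
  filter_upwards [h k, ulim_spec y k] with n h1 h2
  have : x n - ulim y = (x n - y n) + (y n - ulim y) := by ring
  rw [this]
  exact add_mem h1 h2

theorem ulim_congr {x y : ℕ → A} (h : ∀ᶠ n in limFilter, x n = y n) : ulim x = ulim y :=
  ulim_congr_mod fun k => h.mono fun n hn => by simp [hn]

@[simp]
theorem ulim_const (a : A) : ulim (fun _ => a) = a :=
  ulim_eq fun k => Eventually.of_forall fun n => by simp

theorem ulim_add (x y : ℕ → A) : ulim (x + y) = ulim x + ulim y := by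
  refine ulim_eq fun k => ?_
  filter_upwards [ulim_spec x k, ulim_spec y k] with n h1 h2
  have : (x + y) n - (ulim x + ulim y) = (x n - ulim x) + (y n - ulim y) := by
    simp only [Pi.add_apply]; ring
  rw [this]
  exact add_mem h1 h2

theorem ulim_mul (x y : ℕ → A) : ulim (x * y) = ulim x * ulim y := by
  refine ulim_eq fun k => ?_
  filter_upwards [ulim_spec x k, ulim_spec y k] with n h1 h2
  have : (x * y) n - ulim x * ulim y = (x n - ulim x) * y n + ulim x * (y n - ulim y) := by
    simp only [Pi.mul_apply]; ring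
  rw [this]
  exact add_mem (Ideal.mul_mem_right _ _ h1) (Ideal.mul_mem_left _ _ h2)

/-- The limit along the ultrafilter as a ring homomorphism. -/
def ulimHom : (ℕ → A) →+* A where
  toFun := ulim
  map_one' := ulim_const 1
  map_mul' := ulim_mul
  map_zero' := ulim_const 0
  map_add' := ulim_add

@[simp] theorem ulimHom_apply (x : ℕ → A) : ulimHom x = ulim x := rfl

theorem ulim_mem_of_eventually {I : Ideal A} {x : ℕ → A}
    (h : ∀ᶠ n in limFilter, x n ∈ I) : ulim x ∈ I := by
  refine mem_of_forall_mem_sup_pow I fun k => ?_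
  obtain ⟨n, h1, h2⟩ := (h.and (ulim_spec x k)).exists
  have : ulim x = x n - (x n - ulim x) := by ring
  rw [this]
  exact sub_mem (Submodule.mem_sup_left h1) (Submodule.mem_sup_right h2)

/-! ### Limits of data modulo shrinking ideals -/

variable {b : ℕ → Ideal A}

/-- The limit of a sequence of classes modulo shrinking ideals. -/
def ulimQ (x : ∀ n, A ⧸ b n) : A :=
  ulim fun n => Quotient.out (x n)

omit [IsLocalRing A] [IsNoetherianRing A] [Finite (ResidueField A)]
  [IsAdicComplete (maximalIdeal A) A] in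
theorem mk_out {I : Ideal A} (q : A ⧸ I) : Ideal.Quotient.mk I (Quotient.out q) = q :=
  Quotient.out_eq q

theorem ulimQ_eq_ulim (hb : Shrinks b) {x : ∀ n, A ⧸ b n} {y : ℕ → A}
    (h : ∀ᶠ n in limFilter, Ideal.Quotient.mk (b n) (y n) = x n) : ulimQ x = ulim y := by
  refine ulim_congr_mod fun k => ?_
  filter_upwards [h, eventually_limFilter_of_atTop (hb k)] with n hn hle
  exact hle (Ideal.Quotient.eq.mp ((mk_out (x n)).trans hn.symm))

theorem ulimQ_mk (hb : Shrinks b) (y : ℕ → A) :
    ulimQ (fun n => Ideal.Quotient.mk (b n) (y n)) = ulim y :=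
  ulimQ_eq_ulim hb (Eventually.of_forall fun _ => rfl)

theorem ulimQ_congr (hb : Shrinks b) {x y : ∀ n, A ⧸ b n}
    (h : ∀ᶠ n in limFilter, x n = y n) : ulimQ x = ulimQ y := by
  refine ulimQ_eq_ulim hb ?_
  filter_upwards [h] with n hn
  rw [mk_out, hn]

theorem ulimQ_congr_mod (hb : Shrinks b) {x y : ∀ n, A ⧸ b n}
    (h : ∀ k : ℕ, ∀ᶠ n in limFilter,
      x n - y n ∈ (maximalIdeal A ^ k).map (Ideal.Quotient.mk (b n))) :
    ulimQ x = ulimQ y := by
  refine ulim_congr_mod fun k => ?_
  filter_upwards [h k, eventually_limFilter_of_atTop (hb k)] with n hn hle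
  rw [← mk_out (x n), ← mk_out (y n), ← map_sub, ← Ideal.mem_comap,
    Ideal.comap_map_of_surjective _ Ideal.Quotient.mk_surjective, ← RingHom.ker_eq_comap_bot,
    Ideal.mk_ker, sup_eq_left.mpr hle] at hn
  exact hn

/-- The limit of classes modulo shrinking ideals, as a ring homomorphism. -/
def ulimQHom (hb : Shrinks b) : (∀ n, A ⧸ b n) →+* A where
  toFun := ulimQ
  map_one' := (ulimQ_mk hb fun _ => 1).trans (ulim_const 1)
  map_mul' x y := by
    refine (ulimQ_eq_ulim hb (y := (fun n => Quotient.out (x n)) * fun n => Quotient.out (y n))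
      (Eventually.of_forall fun n => ?_)).trans (ulim_mul _ _)
    simp
  map_zero' := (ulimQ_mk hb fun _ => 0).trans (ulim_const 0)
  map_add' x y := by
    refine (ulimQ_eq_ulim hb (y := (fun n => Quotient.out (x n)) + fun n => Quotient.out (y n))
      (Eventually.of_forall fun n => ?_)).trans (ulim_add _ _)
    simp

@[simp] theorem ulimQHom_apply (hb : Shrinks b) (x : ∀ n, A ⧸ b n) :
    ulimQHom hb x = ulimQ x := rfl

theorem ulimQ_spec (_hb : Shrinks b) (x : ∀ n, A ⧸ b n) (k : ℕ) :
    ∀ᶠ n in limFilter,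
      Ideal.Quotient.mk (b n) (ulimQ x) - x n ∈
        (maximalIdeal A ^ k).map (Ideal.Quotient.mk (b n)) := by
  filter_upwards [ulim_spec (fun n => Quotient.out (x n)) k] with n hn
  rw [← neg_sub, Ideal.neg_mem_iff]
  refine Eq.subst (motive := fun q => q - Ideal.Quotient.mk (b n) (ulimQ x) ∈ _) (mk_out (x n)) ?_
  rw [← map_sub]
  exact Ideal.mem_map_of_mem _ hn

/-- The limit agrees with a common image modulo an ideal containing all `b n`. -/
theorem mk_ulimQ_eq_of_factor (_hb : Shrinks b) {I : Ideal A} (hI : ∀ n, b n ≤ I)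
    {x : ∀ n, A ⧸ b n} {c : A ⧸ I}
    (h : ∀ᶠ n in limFilter, Ideal.Quotient.factor (hI n) (x n) = c) :
    Ideal.Quotient.mk I (ulimQ x) = c := by
  obtain ⟨c, rfl⟩ := Ideal.Quotient.mk_surjective c
  rw [Ideal.Quotient.eq]
  refine mem_of_forall_mem_sup_pow I fun k => ?_
  obtain ⟨n, h1, h2⟩ := (h.and (ulim_spec (fun n => Quotient.out (x n)) k)).exists
  rw [← mk_out (x n), Ideal.Quotient.factor_mk, Ideal.Quotient.eq] at h1
  have : ulimQ x - c = (Quotient.out (x n) - c) - (Quotient.out (x n) - ulimQ x) := by ring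
  rw [this]
  exact sub_mem (Submodule.mem_sup_left h1) (Submodule.mem_sup_right h2)

/-! ### Matrices -/

variable {α β γ : Type*}

/-- The entrywise limit of matrices modulo shrinking ideals. -/
def ulimMat (f : ∀ n, Matrix α β (A ⧸ b n)) : Matrix α β A :=
  Matrix.of fun i j => ulimQ fun n => f n i j

theorem ulimMat_apply (f : ∀ n, Matrix α β (A ⧸ b n)) (i : α) (j : β) :
    ulimMat f i j = ulimQ fun n => f n i j := rfl

theorem ulimMat_mul [Fintype β] (hb : Shrinks b) (f : ∀ n, Matrix α β (A ⧸ b n))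
    (g : ∀ n, Matrix β γ (A ⧸ b n)) :
    ulimMat (fun n => f n * g n) = ulimMat f * ulimMat g := by
  ext i j
  rw [Matrix.mul_apply]
  simp only [ulimMat_apply, Matrix.mul_apply, ← ulimQHom_apply hb, ← map_mul, ← map_sum]
  congr 1
  ext n
  simp

theorem ulimMat_add (hb : Shrinks b) (f g : ∀ n, Matrix α β (A ⧸ b n)) :
    ulimMat (fun n => f n + g n) = ulimMat f + ulimMat g := by
  ext i j
  simp only [ulimMat_apply, Matrix.add_apply, ← ulimQHom_apply hb, ← map_add]
  rfl

theorem ulimMat_zero (hb : Shrinks b) :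
    ulimMat (fun n => (0 : Matrix α β (A ⧸ b n))) = 0 := by
  ext i j
  rw [ulimMat_apply, Matrix.zero_apply]
  exact map_zero (ulimQHom hb)

theorem ulimMat_one [DecidableEq α] (hb : Shrinks b) :
    ulimMat (fun n => (1 : Matrix α α (A ⧸ b n))) = 1 := by
  ext i j
  rw [ulimMat_apply]
  rcases eq_or_ne i j with rfl | h
  · simp only [Matrix.one_apply_eq]
    exact map_one (ulimQHom hb)
  · simp only [Matrix.one_apply_ne h]
    exact map_zero (ulimQHom hb)

theorem ulimMat_smul (hb : Shrinks b) (c : ℕ → A) (f : ∀ n, Matrix α β (A ⧸ b n)) :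
    ulimMat (fun n => Ideal.Quotient.mk (b n) (c n) • f n) = ulim c • ulimMat f := by
  ext i j
  rw [Matrix.smul_apply, smul_eq_mul, ← ulimQ_mk hb c]
  simp only [ulimMat_apply, ← ulimQHom_apply hb, ← map_mul]
  rfl

theorem ulimMat_map (hb : Shrinks b) (M : Matrix α β A) :
    ulimMat (fun n => M.map (Ideal.Quotient.mk (b n))) = M := by
  ext i j
  rw [ulimMat_apply]
  exact (ulimQ_mk hb fun _ => M i j).trans (ulim_const _)

theorem ulimMat_congr (hb : Shrinks b) {f g : ∀ n, Matrix α β (A ⧸ b n)}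
    (h : ∀ᶠ n in limFilter, f n = g n) : ulimMat f = ulimMat g := by
  ext i j
  exact ulimQ_congr hb (h.mono fun n hn => by rw [hn])

theorem ulimMat_congr_mod (hb : Shrinks b) {f g : ∀ n, Matrix α β (A ⧸ b n)}
    (h : ∀ k : ℕ, ∀ᶠ n in limFilter, ∀ i j,
      f n i j - g n i j ∈ (maximalIdeal A ^ k).map (Ideal.Quotient.mk (b n))) :
    ulimMat f = ulimMat g := by
  ext i j
  exact ulimQ_congr_mod hb fun k => (h k).mono fun n hn => hn i j

/-- The entrywise limit of square matrices, as a ring homomorphism. -/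
def ulimMatHom [Fintype α] [DecidableEq α] (hb : Shrinks b) :
    (∀ n, Matrix α α (A ⧸ b n)) →+* Matrix α α A where
  toFun := ulimMat
  map_one' := ulimMat_one hb
  map_mul' := ulimMat_mul hb
  map_zero' := ulimMat_zero hb
  map_add' := ulimMat_add hb

@[simp] theorem ulimMatHom_apply [Fintype α] [DecidableEq α] (hb : Shrinks b)
    (f : ∀ n, Matrix α α (A ⧸ b n)) : ulimMatHom hb f = ulimMat f := rfl

/-! ### Homomorphisms and actions -/

variable {R : Type*} [CommRing R]

/-- The limit of ring homomorphisms into `A`. -/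
def ulimRingHom (φ : ℕ → R →+* A) : R →+* A :=
  ulimHom.comp (RingHom.pi φ)

theorem ulimRingHom_apply (φ : ℕ → R →+* A) (r : R) :
    ulimRingHom φ r = ulim fun n => φ n r := rfl

theorem ulimRingHom_eq_of_eventually (φ : ℕ → R →+* A) {r : R} {a : A}
    (h : ∀ᶠ n in limFilter, φ n r = a) : ulimRingHom φ r = a := by
  rw [ulimRingHom_apply, ulim_congr h, ulim_const]

variable [Fintype α] [DecidableEq α]

/-- The limit of actions by matrices modulo shrinking ideals. -/
def ulimAction (hb : Shrinks b) (act : ∀ n, R →+* Matrix α α (A ⧸ b n)) : R →+* Matrix α α A :=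
  (ulimMatHom hb).comp (RingHom.pi act)

theorem ulimAction_apply (hb : Shrinks b) (act : ∀ n, R →+* Matrix α α (A ⧸ b n)) (r : R) :
    ulimAction hb act r = ulimMat fun n => act n r := rfl

end FermatAgent.RTLift.Patch
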